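import Mathlib
import Fermat.Agent.MUL.Orig.F3.EigenChar.Defs
import Fermat.Agent.MUL.F3.I2.FormChar
import Fermat.Agent.MUL.F3.DictC.InvariantsFinal

section MergeWrap_F3_I2_Kappa_CharOf -- from F3/I2/Kappa/CharOf.lean

set_option autoImplicit false

noncomputable section

namespace Fermat.Agent.F3I2

open UpperHalfPlane CongruenceSubgroup Complex
open scoped MatrixGroups Real
open Fermat.Agent.F3EC

variable {N : ℕ}

/-- `exp (2 π i / n)` as a unit of `ℂ`. -/
def rootUnit (n : ℕ) : ℂˣ := Units.mk0 (Complex.exp (2 * π * Complex.I / n)) (Complex.exp_ne_zero _)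

theorem rootUnit_val (n : ℕ) : ((rootUnit n : ℂˣ) : ℂ) = Complex.exp (2 * π * Complex.I / n) := rfl

theorem isPrimitiveRoot_rootUnit {n : ℕ} (hn : n ≠ 0) : IsPrimitiveRoot (rootUnit n) n := by
  have h := Complex.isPrimitiveRoot_exp n hn
  rw [← rootUnit_val] at h
  exact IsPrimitiveRoot.coe_units_iff.1 h

theorem rootUnit_pow_self (n : ℕ) : rootUnit n ^ n = 1 := by
  rcases Nat.eq_zero_or_pos n with rfl | hn
  · simp
  · exact (isPrimitiveRoot_rootUnit hn.ne').pow_eq_one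

theorem rootUnit_mul_pow {n d : ℕ} (hd : d ≠ 0) : rootUnit (d * n) ^ d = rootUnit n := by
  apply Units.ext
  rw [Units.val_pow_eq_pow_val, rootUnit_val, rootUnit_val, ← Complex.exp_nat_mul]
  congr 1
  push_cast
  rcases Nat.eq_zero_or_pos n with rfl | hn
  · simp
  · field_simp

theorem norm_rootUnit (n : ℕ) : ‖((rootUnit n : ℂˣ) : ℂ)‖ = 1 := by
  rw [rootUnit_val]
  have : (2 * π * Complex.I / n : ℂ) = ((2 * π / n : ℝ) : ℂ) * Complex.I := by
    push_cast
    ring
  rw [this, Complex.norm_exp_ofReal_mul_I]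

/-- The character `γ ↦ exp (2 π i c(γ) / n)`. -/
def charOf (n : ℕ) (c : HomPar N) : ↥(Gamma0 N) →* ℂˣ where
  toFun γ := rootUnit n ^ (c.1 (Additive.ofMul γ))
  map_one' := by
    simp
  map_mul' γ δ := by
    rw [ofMul_mul, map_add, zpow_add]

theorem charOf_apply (n : ℕ) (c : HomPar N) (γ : ↥(Gamma0 N)) :
    charOf n c γ = rootUnit n ^ (c.1 (Additive.ofMul γ)) := rfl

theorem charOf_pow (n : ℕ) (c : HomPar N) (γ : ↥(Gamma0 N)) : charOf n c γ ^ n = 1 := by
  rw [charOf_apply, ← zpow_natCast, ← zpow_mul, mul_comm, zpow_mul, zpow_natCast,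
    rootUnit_pow_self, one_zpow]

theorem norm_charOf (n : ℕ) (c : HomPar N) (γ : ↥(Gamma0 N)) :
    ‖((charOf n c γ : ℂˣ) : ℂ)‖ = 1 := by
  rw [charOf_apply, Units.val_zpow_eq_zpow_val, norm_zpow, norm_rootUnit, one_zpow]

theorem charOf_add (n : ℕ) (c c' : HomPar N) : charOf n (c + c') = charOf n c * charOf n c' := by
  ext γ
  simp only [charOf_apply, MonoidHom.mul_apply, Units.val_mul]
  rw [← Units.val_mul, ← zpow_add]
  rfl

theorem charOf_zero (n : ℕ) : charOf n (0 : HomPar N) = 1 := by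
  ext γ
  simp [charOf_apply]

theorem charOf_compat {n d : ℕ} (hd : d ≠ 0) (c : HomPar N) :
    charOf (d * n) c ^ d = charOf n c := by
  ext γ
  simp only [MonoidHom.pow_apply, charOf_apply]
  rw [← zpow_natCast, ← zpow_mul, mul_comm (c.1 (Additive.ofMul γ)) (d : ℤ), zpow_mul,
    zpow_natCast, rootUnit_mul_pow hd]

/-- `χ_{c,n}` is trivial on elements killed by `c`. -/
theorem charOf_eq_one_of_apply_eq_zero (n : ℕ) (c : HomPar N) {γ : ↥(Gamma0 N)}
    (h : c.1 (Additive.ofMul γ) = 0) : charOf n c γ = 1 := by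
  rw [charOf_apply, h, zpow_zero]

/-- `χ_{c,n}` is trivial on elements of trace `±2`. -/
theorem charOf_eq_one_of_trace (n : ℕ) (c : HomPar N) {γ : ↥(Gamma0 N)}
    (h : ((γ : SL(2, ℤ)) : Matrix (Fin 2) (Fin 2) ℤ).trace ^ 2 = 4) : charOf n c γ = 1 :=
  charOf_eq_one_of_apply_eq_zero n c (c.2 γ h)

/-- `χ_{c,n}` is trivial on elements of finite order. -/
theorem charOf_eq_one_of_pow_eq_one (n : ℕ) (c : HomPar N) {γ : ↥(Gamma0 N)} {m : ℕ}
    (hm : m ≠ 0) (h : γ ^ m = 1) : charOf n c γ = 1 := by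
  apply charOf_eq_one_of_apply_eq_zero
  have h1 : c.1 (Additive.ofMul (γ ^ m)) = m • c.1 (Additive.ofMul γ) := by
    rw [ofMul_pow, map_nsmul]
  rw [h, ofMul_one, map_zero] at h1
  have h2 : (m : ℤ) * c.1 (Additive.ofMul γ) = 0 := by
    rw [← h1.symm]
    simp
  rcases mul_eq_zero.1 h2 with h3 | h3
  · exact absurd (by exact_mod_cast h3) hm
  · exact h3

/-- If `χ_{c,n}` is trivial then `c` is divisible by `n`. -/
theorem exists_eq_smul_of_charOf_eq_one {n : ℕ} (hn : n ≠ 0) (c : HomPar N)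
    (h : charOf n c = 1) : ∃ c' : HomPar N, c = (n : ℤ) • c' := by
  have hdvd : ∀ γ : ↥(Gamma0 N), (n : ℤ) ∣ c.1 (Additive.ofMul γ) := by
    intro γ
    have h1 : charOf n c γ = 1 := by rw [h]; rfl
    rw [charOf_apply] at h1
    exact (isPrimitiveRoot_rootUnit hn).zpow_eq_one_iff_dvd _ |>.1 h1
  have hn' : (n : ℤ) ≠ 0 := by exact_mod_cast hn
  let c₀ : Additive ↥(Gamma0 N) →+ ℤ :=
    { toFun := fun a => c.1 a / n
      map_zero' := by simp
      map_add' := fun a b => by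
        obtain ⟨ka, hka⟩ := hdvd (Additive.toMul a)
        obtain ⟨kb, hkb⟩ := hdvd (Additive.toMul b)
        simp only [ofMul_toMul] at hka hkb
        rw [map_add, hka, hkb, ← mul_add, Int.mul_ediv_cancel_left _ hn',
          Int.mul_ediv_cancel_left _ hn', Int.mul_ediv_cancel_left _ hn'] }
  have hc₀ : ∀ a, (n : ℤ) * c₀ a = c.1 a := by
    intro a
    obtain ⟨ka, hka⟩ := hdvd (Additive.toMul a)
    simp only [ofMul_toMul] at hka
    show (n : ℤ) * (c.1 a / n) = c.1 a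
    rw [hka, Int.mul_ediv_cancel_left _ hn']
  refine ⟨⟨c₀, ?_⟩, ?_⟩
  · intro γ hγ
    have h1 := hc₀ (Additive.ofMul γ)
    rw [c.2 γ hγ] at h1
    rcases mul_eq_zero.1 h1 with h2 | h2
    · exact absurd h2 hn'
    · exact h2
  · apply Subtype.ext
    ext a
    exact (hc₀ _).symm

end Fermat.Agent.F3I2
end
end MergeWrap_F3_I2_Kappa_CharOf
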